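import Fermat.Agent.S26.TopT

/-!
# S26 / P16 INTEG: `exists_volData` from the other frozen exports (helper2024)

`Fermat.Agent.S26.INTEG.H2024.exists_volData` has EXACTLY the frozen signature of
`Fermat.Agent.S26.exists_volData` (Top.lean) and is proved from the frozen exports
`exists_nsmul_algHom`, `tors_faithful`, `tors_fixed_iff`, `pullFun_nsmul_mem`,
`mem_of_pullFun_nsmul_mem`, `pullFun_transl_mem`, `isCartier_pullback_nsmul`,
`integral_mem_LSpace`, `exists_D0`, `LSpace_pow_bound`, `T_linEquiv`,
`pullFun_transl_algebraMap` (all used as black boxes; `exists_volData` itself is not used).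
-/

set_option autoImplicit false

universe u

open CategoryTheory CategoryTheory.Limits AlgebraicGeometry NeronModelInfra GoodReductionJacobian

namespace Fermat.Agent.S26.INTEG.H2024

noncomputable section

section Calculus

variable {K : Type u} [Field K] {A : Scheme.{u}}
  {f : A ⟶ Spec (CommRingCat.of K)}

/-! ### Small calculus of `IsUnitAt`, `Fam.Same`, `LSpace` -/

theorem isUnitAt_pow [IsIntegral A] {p : A} {v : A.functionField} (h : IsUnitAt p v) (j : ℕ) :
    IsUnitAt p (v ^ j) :=
  ⟨Subring.pow_mem _ h.1 j, by rw [← inv_pow]; exact Subring.pow_mem _ h.2 j⟩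

theorem same_pow [IsIntegral A] {D D' : Fam A} (h : Fam.Same D D') (j : ℕ) :
    Fam.Same (D ^ j) (D' ^ j) := by
  intro p
  have h1 := isUnitAt_pow (h p) j
  have e : ((((D ^ j) p / (D' ^ j) p : (A.functionField)ˣ)) : A.functionField) =
      (((D p / D' p : (A.functionField)ˣ)) : A.functionField) ^ j := by
    rw [Pi.pow_apply, Pi.pow_apply, ← div_pow, Units.val_pow_eq_pow_val]
  rw [e]
  exact h1

theorem isCartier_pow [IsIntegral A] {D : Fam A} (h : D.IsCartier) (j : ℕ) :
    (D ^ j).IsCartier := by
  intro x
  obtain ⟨U, hxU, hU⟩ := h x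
  refine ⟨U, hxU, fun y hy => ?_⟩
  have h1 := isUnitAt_pow (hU y hy) j
  have e : ((((D ^ j) y / (D ^ j) x : (A.functionField)ˣ)) : A.functionField) =
      (((D y / D x : (A.functionField)ˣ)) : A.functionField) ^ j := by
    rw [Pi.pow_apply, Pi.pow_apply, ← div_pow, Units.val_pow_eq_pow_val]
  rw [e]
  exact h1

theorem mem_LSpace_of_same [IsIntegral A] {D D' : Fam A} (h : Fam.Same D D') {x : FF f}
    (hx : x ∈ LSpace f D') : x ∈ LSpace f D := by
  intro p
  have hu := (h p).1
  have h2 := Subring.mul_mem _ (hx p) hu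
  have hne : ((D' p : (A.functionField)ˣ) : A.functionField) ≠ 0 := Units.ne_zero _
  have e : (id x : A.functionField) * ((D p : (A.functionField)ˣ) : A.functionField) =
      (id x : A.functionField) * ((D' p : (A.functionField)ˣ) : A.functionField) *
        (((D p / D' p : (A.functionField)ˣ)) : A.functionField) := by
    rw [Units.val_div_eq_div_val]
    field_simp
  show (id x : A.functionField) * ((D p : (A.functionField)ˣ) : A.functionField) ∈ localRing A p
  rw [e]
  exact h2

theorem mem_LSpace_of_same' [IsIntegral A] {D D' : Fam A} (h : Fam.Same D D') {x : FF f}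
    (hx : x ∈ LSpace f D) : x ∈ LSpace f D' := by
  intro p
  have hu := (h p).2
  have h2 := Subring.mul_mem _ (hx p) hu
  have hne : ((D' p : (A.functionField)ˣ) : A.functionField) ≠ 0 := Units.ne_zero _
  have hne' : ((D p : (A.functionField)ˣ) : A.functionField) ≠ 0 := Units.ne_zero _
  have e : (id x : A.functionField) * ((D' p : (A.functionField)ˣ) : A.functionField) =
      (id x : A.functionField) * ((D p : (A.functionField)ˣ) : A.functionField) *
        (((D p / D' p : (A.functionField)ˣ)) : A.functionField)⁻¹ := by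
    rw [Units.val_div_eq_div_val]
    field_simp
  show (id x : A.functionField) * ((D' p : (A.functionField)ˣ) : A.functionField) ∈ localRing A p
  rw [e]
  exact h2

theorem mem_LSpace_same_iff [IsIntegral A] {D D' : Fam A} (h : Fam.Same D D') {x : FF f} :
    x ∈ LSpace f D ↔ x ∈ LSpace f D' :=
  ⟨mem_LSpace_of_same' h, mem_LSpace_of_same h⟩

theorem mul_mem_LSpace_pow [IsIntegral A] (E : Fam A) {k l : ℕ} {x y : FF f}
    (hx : x ∈ LSpace f (E ^ k)) (hy : y ∈ LSpace f (E ^ l)) :
    x * y ∈ LSpace f (E ^ (k + l)) := by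
  intro p
  have h := Subring.mul_mem _ (hx p) (hy p)
  have e : (id (x * y) : A.functionField) *
      (((E ^ (k + l)) p : (A.functionField)ˣ) : A.functionField) =
      ((id x : A.functionField) * (((E ^ k) p : (A.functionField)ˣ) : A.functionField)) *
        ((id y : A.functionField) * (((E ^ l) p : (A.functionField)ˣ) : A.functionField)) := by
    have e0 : (id (x * y) : A.functionField) =
        (id x : A.functionField) * (id y : A.functionField) := rfl
    rw [e0, Pi.pow_apply, Pi.pow_apply, Pi.pow_apply, Units.val_pow_eq_pow_val,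
      Units.val_pow_eq_pow_val, Units.val_pow_eq_pow_val, pow_add]
    ring
  show (id (x * y) : A.functionField) *
      (((E ^ (k + l)) p : (A.functionField)ˣ) : A.functionField) ∈ localRing A p
  rw [e]
  exact h

theorem one_mem_LSpace_pow_one [IsIntegral A] {D : Fam A} (h : D.IsEffective) :
    (1 : FF f) ∈ LSpace f (D ^ 1) := by
  intro p
  have e : (id (1 : FF f) : A.functionField) *
      (((D ^ 1) p : (A.functionField)ˣ) : A.functionField) =
      ((D p : (A.functionField)ˣ) : A.functionField) := by
    have e0 : (id (1 : FF f) : A.functionField) = 1 := rfl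
    rw [e0, pow_one, one_mul]
  show (id (1 : FF f) : A.functionField) *
      (((D ^ 1) p : (A.functionField)ˣ) : A.functionField) ∈ localRing A p
  rw [e]
  exact h p

/-- An element of the function field, viewed in `FF f` (definitional cast). -/
def toFF (f : A ⟶ Spec (CommRingCat.of K)) [IsIntegral A] (v : A.functionField) : FF f := v

/-- Twisting by a principal divisor: `x ∈ L(D + div u) ↔ u x ∈ L(D)`. -/
theorem mem_LSpace_mul_const_iff [IsIntegral A] (D : Fam A) (u : (A.functionField)ˣ)
    (x : FF f) :
    x ∈ LSpace f (D * Fam.const u) ↔ toFF f (u : A.functionField) * x ∈ LSpace f D := by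
  have key : ∀ p : A,
      (id x : A.functionField) * (((D * Fam.const u) p : (A.functionField)ˣ) : A.functionField) =
      (id (toFF f (u : A.functionField) * x) : A.functionField) *
        ((D p : (A.functionField)ˣ) : A.functionField) := by
    intro p
    have e0 : (id (toFF f (u : A.functionField) * x) : A.functionField) =
        (u : A.functionField) * (id x : A.functionField) := rfl
    rw [e0, Pi.mul_apply, Units.val_mul]
    show _ * (_ * (u : A.functionField)) = _
    ring
  constructor
  · intro hx p
    show (id (toFF f (u : A.functionField) * x) : A.functionField) *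
        ((D p : (A.functionField)ˣ) : A.functionField) ∈ localRing A p
    rw [← key p]
    exact hx p
  · intro hx p
    show (id x : A.functionField) *
        (((D * Fam.const u) p : (A.functionField)ˣ) : A.functionField) ∈ localRing A p
    rw [key p]
    exact hx p

theorem const_pow [IsIntegral A] (u : (A.functionField)ˣ) (j : ℕ) :
    (Fam.const u : Fam A) ^ j = Fam.const (u ^ j) := rfl

end Calculus

/-! ### The assembly -/

section Assembly

variable {K : Type u} [Field K] [IsAlgClosed K] {A : Scheme.{u}}
  {f : A ⟶ Spec (CommRingCat.of K)}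

/-- P16 EXPORT `exists_volData` (same signature as the frozen statement in Top.lean),
proved from the other exports. -/
theorem exists_volData [IsIntegral A] (L : RelativeGroupLaw K f) (hc : L.IsCommutative)
    (hA : AbelianSchemePropertyBundle K f) (g : ℕ) [SmoothOfRelativeDimension g f]
    (n : ℕ) (hn : (n : K) ≠ 0) :
    letI := torsCommGroup L hc n
    letI := torsAction L hc n
    Nonempty (VolData K (FF f) g n (TorsPts L n)) := by
  letI := torsCommGroup L hc n
  letI := torsAction L hc n
  obtain ⟨φ, hφ⟩ := exists_nsmul_algHom L hc hA n hn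
  obtain ⟨D₀, hD₀c, hD₀e, hD₀s, hD₀f⟩ := exists_D0 L hc hA
  obtain ⟨hEc, hEpow⟩ := isCartier_pullback_nsmul L hc hA n hn D₀ hD₀c
  obtain ⟨hfin, hbound⟩ := LSpace_pow_bound L hA g D₀ hD₀c hD₀e
  have hsym : Fam.LinEquiv (Fam.pullback (negMap L) D₀) D₀ := by
    refine ⟨1, ?_⟩
    have e1 : D₀ * Fam.const (1 : (A.functionField)ˣ) = D₀ := by
      funext p
      simp [Fam.const]
    rw [e1]
    exact hD₀s
  obtain ⟨N, hN, h, hh⟩ := T_linEquiv L hc hA g n hn D₀ hD₀c hsym
  -- abbreviations
  set E : Fam A := Fam.pullback (L.schemeNsmul n) D₀ with hE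
  have hu0 : toFF f (h : A.functionField) ≠ 0 := Units.ne_zero h
  refine ⟨
    { φ := φ
      L := fun k => LSpace f (D₀ ^ k)
      W := fun k => LSpace f (E ^ k)
      smul_algebraMap := fun a c => pullFun_transl_algebraMap L a.1 c
      faithful := fun a ha => Subtype.ext (tors_faithful L hc hA n a ha)
      fixed_iff := fun x => (tors_fixed_iff L hc hA n hn x).trans
        ⟨fun ⟨y, hy⟩ => ⟨y, (hφ y).trans hy⟩, fun ⟨y, hy⟩ => ⟨y, (hφ y).symm.trans hy⟩⟩
      one_mem_L := one_mem_LSpace_pow_one hD₀e
      mul_mem_L := fun hx hy => mul_mem_LSpace_pow D₀ hx hy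
      mul_mem_W := fun hx hy => mul_mem_LSpace_pow E hx hy
      map_mem_W := ?_
      smul_mem_W := ?_
      mem_L_of_map_mem_W := ?_
      integral_mem_W := fun k m y c hc' hy => integral_mem_LSpace L hA E hEc k m y c hc' hy
      exists_frac := hD₀f
      finite_L := hfin
      bound_L := hbound
      equiv := ⟨N, hN, toFF f (h : A.functionField), hu0, ?_⟩ }⟩
  · -- map_mem_W
    intro k x hx
    have h1 := pullFun_nsmul_mem L hc hA n hn (D₀ ^ k) (isCartier_pow hD₀c k) hx
    have h2 : φ x ∈ LSpace f (Fam.pullback (L.schemeNsmul n) (D₀ ^ k)) := by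
      rw [hφ x]; exact h1
    exact mem_LSpace_of_same' (hEpow k) h2
  · -- smul_mem_W
    intro a k x hx
    have hx' : x ∈ LSpace f (Fam.pullback (L.schemeNsmul n) (D₀ ^ k)) :=
      mem_LSpace_of_same (hEpow k) hx
    have h1 := pullFun_transl_mem L hc hA n hn (D₀ ^ k) (isCartier_pow hD₀c k) a hx'
    exact mem_LSpace_of_same' (hEpow k) h1
  · -- mem_L_of_map_mem_W
    intro k x hx
    have hx' : φ x ∈ LSpace f (Fam.pullback (L.schemeNsmul n) (D₀ ^ k)) :=
      mem_LSpace_of_same (hEpow k) hx
    rw [hφ x] at hx'
    exact mem_of_pullFun_nsmul_mem L hc hA n hn (D₀ ^ k) (isCartier_pow hD₀c k) hx'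
  · -- equiv
    intro j x
    have hS : Fam.Same (E ^ (N * j)) (D₀ ^ (N * n ^ 2 * j) * Fam.const (h ^ j)) := by
      have h1 := same_pow hh j
      rw [← pow_mul, mul_pow, ← pow_mul, const_pow] at h1
      exact h1
    rw [mem_LSpace_same_iff hS, mem_LSpace_mul_const_iff]
    rfl

end Assembly

end

end Fermat.Agent.S26.INTEG.H2024
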